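import Mathlib
import Fermat.Agent.LT.T6.H385.QuatSpec
import Fermat.Agent.LT.T6.H60.EllUnrSpec
import Fermat.Agent.LT.T6.H847.EllRamSpec

/-!
# Row LT, tower T6, leaf T6.18i.3 `EPOrbC385` (helper844), OFF-MAIN

The orbital integrals of the spherical Euler–Poincaré function
`f₀ = 1_{K ϖ^{(j+1, j-1)} K} - (q - 1) 1_{K ϖ^{(j, j)} K}`, `j = ord z`, at the regular `γ` in a
small `χ`-ball around `(2z, z²)`: `2` (elliptic unramified), `1` (elliptic ramified),
`0` (hyperbolic).  GLUE from the leaves of the fundamental lemma, in the instance `k' = k`,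
`l = 1`, `s = id`:

`epOrbC844 : H60.OrbEllUnrC → H847.EllReduceC → H847.EllOrbC → H288.DiagReduceC →
    H288.OrbSumDiagC → H385.EPOrbC385`.
-/

set_option autoImplicit false

open scoped Matrix

noncomputable section

namespace Fermat.Agent.LT.T6.H844

open Fermat.Agent.LT.T6 Fermat.Agent.LT.T6.H783 Fermat.Agent.LT.T6.H385

/-! ## The trivial extension `k / k` -/

section Triv

variable {k : Type} [Field k]

lemma isCyclicData_refl844 : IsCyclicData k k 1 (RingHom.id k) (RingEquiv.refl k) where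
  pos := Nat.one_pos
  fix_i _ := rfl
  fixed y _ := ⟨y, rfl⟩
  order _ := rfl
  faithful m hm hm1 := absurd hm1 (by omega)

lemma isLocalExt_refl844 [Valued k Γ₀] :
    IsLocalExt k k 1 1 (RingHom.id k) (RingEquiv.refl k) where
  cyc := isCyclicData_refl844
  e_pos := Nat.one_pos
  val_i x := by simp
  val_s _ := rfl

lemma glAut_refl844 (g : GL (Fin 2) k) : glAut (RingEquiv.refl k) g = g := by
  apply Units.ext
  ext i j
  simp [glAut]

lemma twNorm_one844 (g : GL (Fin 2) k) : twNorm (RingEquiv.refl k) 1 g = g := by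
  simp [twNorm, twN]

lemma map_id844 (g : GL (Fin 2) k) : Matrix.GeneralLinearGroup.map (RingHom.id k) g = g := by
  rw [Matrix.GeneralLinearGroup.map_id]
  rfl

lemma isConj_twNorm_refl844 (g : GL (Fin 2) k) :
    IsConj (twNorm (RingEquiv.refl k) 1 g) (Matrix.GeneralLinearGroup.map (RingHom.id k) g) := by
  rw [twNorm_one844, map_id844]

end Triv

/-! ## Orbit sums depend on the twisted conjugacy class only -/

lemma isOrbSumGen_of_twConj844 {Γ : Type} [Group Γ] (s : Γ →* Γ) (U : Γ → Prop)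
    (C : Γ → Γ → Prop) (φ : Γ → ℂ) (δ δ₀ : Γ) (c : ℂ) (x₀ : Γ) (h₀ : δ₀ = x₀⁻¹ * δ * s x₀)
    (h : IsOrbSumGen s U C φ δ c) : IsOrbSumGen s U C φ δ₀ c := by
  obtain ⟨R, h1, h2, h3, h4⟩ := h
  have key : ∀ y : Γ, (∃ x, y = x⁻¹ * δ * s x) ↔ (∃ x, y = x⁻¹ * δ₀ * s x) := by
    intro y
    constructor
    · rintro ⟨x, rfl⟩
      refine ⟨x₀⁻¹ * x, ?_⟩
      rw [h₀]
      simp [mul_assoc]
    · rintro ⟨x, rfl⟩
      refine ⟨x₀ * x, ?_⟩
      rw [h₀]
      simp [mul_assoc]
  exact ⟨R, fun y hy => (key y).mp (h1 y hy), h2, fun y hy => h3 y ((key y).mpr hy), h4⟩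

lemma isOrbSum_of_twConj844 {k : Type} [Field k] [Valued k Γ₀] (f : GL (Fin 2) k → ℂ)
    (γ δ₀ : GL (Fin 2) k) (c : ℂ) (hconj : IsTwConj (RingEquiv.refl k) γ δ₀)
    (h : IsOrbSum 0 f γ c) : IsTwOrbSum (RingEquiv.refl k) 0 f δ₀ c := by
  obtain ⟨x, hx⟩ := hconj
  exact isOrbSumGen_of_twConj844 _ _ _ _ γ δ₀ c x hx h

/-! ## The three evaluations -/

lemma epFun_sum844 (q : ℕ) (j : ℤ) (w : ℤ × ℤ → ℂ) :
    ((epFun385 q j).sum fun lam c => c * w lam)
      = w (j + 1, j - 1) - ((q : ℂ) - 1) * w (j, j) := by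
  unfold epFun385
  rw [Finsupp.sum_sub_index (by intros; ring), Finsupp.sum_single_index (by simp),
    Finsupp.sum_single_index (by simp), one_mul]

lemma wGeo_eval844 (q r : ℕ) (j : ℤ) :
    H60.wGeo q r j (j + 1, j - 1) - ((q : ℂ) - 1) * H60.wGeo q r j (j, j) = 2 := by
  have h1 : (j + 1) + (j - 1) = 2 * j := by ring
  have h2 : ¬ (j + 1 = j - 1) := by omega
  have h3 : j - 1 < j + 1 := by omega
  have h4 : (j + 1 - j).toNat - 1 = 0 := by
    have : j + 1 - j = 1 := by ring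
    rw [this]
    rfl
  have h5 : j + j = 2 * j := by ring
  simp only [H60.wGeo, H60.wFix, h1, h2, h3, h4, h5, if_true, if_false, pow_zero, mul_one]
  ring

lemma ellWeight_eval844 (Q : ℕ) (q : ℂ) (j : ℤ) (Θ : ℂ) (hQ : (Q : ℂ) = q) :
    H847.ellWeight Q (j + 1, j - 1) (2 * j) Θ - (q - 1) * H847.ellWeight Q (j, j) (2 * j) Θ
      = 1 := by
  have h1 : (j + 1) + (j - 1) = 2 * j := by ring
  have h2 : ¬ (j + 1 = j - 1) := by omega
  have h3 : j - 1 ≤ j + 1 := by omega
  have h4 : (j + 1 - (j - 1)) / 2 - 1 = 0 := by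
    have : j + 1 - (j - 1) = 2 := by ring
    rw [this]
    rfl
  have h5 : j + j = 2 * j := by ring
  have h6 : ¬ (2 * j % 2 = 1) := by omega
  simp only [H847.ellWeight, h1, h2, h3, h4, h5, h6, le_refl, and_self, if_true, if_false,
    zpow_zero, one_mul, hQ]
  ring

lemma constTerm_eval844 (Q : ℕ) (q : ℕ) (j : ℤ) (hQ : Q = q) (hq : 1 < q) :
    H288.constTerm Q (epFun385 q j) j j = 0 := by
  subst hQ
  have hq0 : (Q : ℂ) ≠ 0 := by
    have : Q ≠ 0 := by omega
    exact_mod_cast this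
  unfold H288.constTerm
  rw [epFun_sum844]
  have h1 : (j + 1) + (j - 1) = j + j := by ring
  have h2 : ¬ (j - 1 = j) := by omega
  have h3 : j - 1 ≤ j := by omega
  simp only [H288.ctWeight, h1, h2, h3, min_self, le_refl, and_self, if_true, if_false]
  have h4 : (Q : ℂ) ^ (-(j - 1)) = (Q : ℂ) ^ (-j) * (Q : ℂ) := by
    have : -(j - 1) = -j + 1 := by ring
    rw [this, zpow_add₀ hq0, zpow_one]
  rw [h4]
  field_simp
  ring

/-! ## Valuations near the central point -/

section Val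

variable {k : Type} [Field k] [Valued k Γ₀]

lemma val_two_le_one844 : Valued.v (2 : k) ≤ 1 := by
  have h : (2 : k) = 1 + 1 := by norm_num
  rw [h]
  refine le_trans (Valuation.map_add _ _ _) ?_
  simp

lemma val_eq_of_near844 {x y : k} {N : ℤ} (hy : y ≠ 0)
    (h : Valued.v (x - y) ≤ WithZero.exp (-N)) (hN : -N < WithZero.log (Valued.v y)) :
    Valued.v x = Valued.v y := by
  apply Valuation.map_eq_of_sub_lt
  refine lt_of_le_of_lt h ?_
  exact (WithZero.lt_log_iff_exp_lt ((Valuation.ne_zero_iff _).mpr hy)).mp hN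

lemma log_val_sq844 (z : k) :
    WithZero.log (Valued.v (z ^ 2)) = 2 * WithZero.log (Valued.v z) := by
  rw [map_pow, WithZero.log_pow]
  simp

/-- Near `z²` the determinant has the valuation of `z²`. -/
lemma log_val_det844 {d z : k} {N : ℤ} (hz : z ≠ 0)
    (h : Valued.v (d - z ^ 2) ≤ WithZero.exp (-N))
    (hN : -N < 2 * WithZero.log (Valued.v z)) :
    WithZero.log (Valued.v d) = 2 * WithZero.log (Valued.v z) := by
  rw [val_eq_of_near844 (pow_ne_zero 2 hz) h (by rw [log_val_sq844]; exact hN), log_val_sq844]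

/-- Two elements with sum near `2z` and product near `z²` have the valuation of `z`. -/
lemma log_val_eigen844 {t₁ t₂ z : k} {N : ℤ} (ht₁ : t₁ ≠ 0) (ht₂ : t₂ ≠ 0) (hz : z ≠ 0)
    (htr : Valued.v (t₁ + t₂ - 2 * z) ≤ WithZero.exp (-N))
    (hdet : Valued.v (t₁ * t₂ - z ^ 2) ≤ WithZero.exp (-N))
    (hN1 : -N < 2 * WithZero.log (Valued.v z)) (hN2 : -N ≤ WithZero.log (Valued.v z)) :
    WithZero.log (Valued.v t₁) = WithZero.log (Valued.v z) ∧
      WithZero.log (Valued.v t₂) = WithZero.log (Valued.v z) := by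
  have hv₁ : Valued.v t₁ ≠ 0 := (Valuation.ne_zero_iff _).mpr ht₁
  have hv₂ : Valued.v t₂ ≠ 0 := (Valuation.ne_zero_iff _).mpr ht₂
  have hvz : Valued.v z ≠ 0 := (Valuation.ne_zero_iff _).mpr hz
  have hprod : WithZero.log (Valued.v t₁) + WithZero.log (Valued.v t₂)
      = 2 * WithZero.log (Valued.v z) := by
    rw [← log_val_det844 hz hdet hN1, map_mul, WithZero.log_mul hv₁ hv₂]
  have hsum : Valued.v (t₁ + t₂) ≤ Valued.v z := by
    have h : t₁ + t₂ = (t₁ + t₂ - 2 * z) + 2 * z := by ring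
    rw [h]
    refine le_trans (Valuation.map_add _ _ _) (max_le ?_ ?_)
    · refine le_trans htr ?_
      exact (WithZero.le_log_iff_exp_le hvz).mp hN2
    · rw [map_mul]
      calc Valued.v (2 : k) * Valued.v z ≤ 1 * Valued.v z := by
            gcongr
            exact val_two_le_one844
        _ = Valued.v z := one_mul _
  by_cases hAB : WithZero.log (Valued.v t₁) = WithZero.log (Valued.v t₂)
  · constructor <;> omega
  · exfalso
    have hne : Valued.v t₁ ≠ Valued.v t₂ := fun h => hAB (by rw [h])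
    rw [Valuation.map_add_of_distinct_val _ hne] at hsum
    have h1 : WithZero.log (Valued.v t₁) ≤ WithZero.log (Valued.v z) :=
      (WithZero.log_le_log hv₁ hvz).mpr (le_trans (le_max_left _ _) hsum)
    have h2 : WithZero.log (Valued.v t₂) ≤ WithZero.log (Valued.v z) :=
      (WithZero.log_le_log hv₂ hvz).mpr (le_trans (le_max_right _ _) hsum)
    omega

end Val

/-! ## The leaf -/

/-- **T6.18i.3**: the orbital integrals of the spherical Euler–Poincaré function near the
centre, from the leaves of the fundamental lemma. -/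
theorem epOrbC844 (hU : H60.OrbEllUnrC) (hR : H847.EllReduceC) (hO : H847.EllOrbC)
    (hD : H288.DiagReduceC) (hS : H288.OrbSumDiagC) : EPOrbC385 := by
  intro k _ _ q hk z hz
  have hq1 : 1 < q := H60.one_lt_of_isLocalField hk
  have hk1 : IsLocalField k (q ^ 1) := by rwa [pow_one]
  refine ⟨2 * |WithZero.log (Valued.v z)| + 1, fun γ hreg hball c' hc' => ?_⟩
  obtain ⟨htr, hdet⟩ := hball
  have hN1 : -(2 * |WithZero.log (Valued.v z)| + 1) < 2 * WithZero.log (Valued.v z) := by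
    have := neg_abs_le (WithZero.log (Valued.v z))
    omega
  have hN2 : -(2 * |WithZero.log (Valued.v z)| + 1) ≤ WithZero.log (Valued.v z) := by
    have h1 := neg_abs_le (WithZero.log (Valued.v z))
    have h2 := abs_nonneg (WithZero.log (Valued.v z))
    omega
  have hlogdet : WithZero.log (Valued.v (γ : Matrix (Fin 2) (Fin 2) k).det)
      = 2 * WithZero.log (Valued.v z) := log_val_det844 hz hdet hN1
  unfold quatMult385
  by_cases hE : HasEigen k γ
  · -- hyperbolic
    rw [if_pos hE]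
    obtain ⟨d₁, d₂, t₁, t₂, δ₀, γ₀, ht12, hd₁, hd₂, hδ₀, hγ₀, hn₁, hn₂, htw, hcj⟩ :=
      hD k k 1 (RingHom.id k) (RingEquiv.refl k) isCyclicData_refl844 γ γ hreg hE
        (isConj_twNorm_refl844 γ)
    have hc := hS k k q 1 (RingHom.id k) (RingEquiv.refl k) hk hk1 isLocalExt_refl844
      (epFun385 q (ord385 z)) d₁ d₂ t₁ t₂ δ₀ hδ₀ hd₁ hd₂ ht12 hn₁ hn₂ c'
      (isOrbSum_of_twConj844 _ γ δ₀ c' htw hc')
    have hd₁t : d₁ = t₁ := by simpa [H288.fNorm] using hn₁
    have hd₂t : d₂ = t₂ := by simpa [H288.fNorm] using hn₂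
    obtain ⟨x, hx⟩ := isConj_iff.mp hcj
    have hγ₀' : (γ₀ : Matrix (Fin 2) (Fin 2) k)
        = (x : Matrix (Fin 2) (Fin 2) k) * (γ : Matrix (Fin 2) (Fin 2) k)
          * ((x⁻¹ : GL (Fin 2) k) : Matrix (Fin 2) (Fin 2) k) := by
      rw [← hx]
      rfl
    have htrace : (γ : Matrix (Fin 2) (Fin 2) k).trace = d₁ + d₂ := by
      rw [← Matrix.trace_units_conj x (γ : Matrix (Fin 2) (Fin 2) k), ← hγ₀', hγ₀,
        Matrix.trace_fin_two_of, hd₁t, hd₂t]
    have hdett : (γ : Matrix (Fin 2) (Fin 2) k).det = d₁ * d₂ := by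
      rw [← Matrix.det_units_conj x (γ : Matrix (Fin 2) (Fin 2) k), ← hγ₀', hγ₀,
        Matrix.det_fin_two_of, hd₁t, hd₂t]
      ring
    rw [htrace] at htr
    rw [hdett] at hdet
    obtain ⟨h1, h2⟩ := log_val_eigen844 hd₁ hd₂ hz htr hdet hN1 hN2
    have ho₁ : H288.ordv d₁ = ord385 z := by
      unfold H288.ordv ord385
      rw [h1]
    have ho₂ : H288.ordv d₂ = ord385 z := by
      unfold H288.ordv ord385
      rw [h2]
    rw [hc, ho₁, ho₂, constTerm_eval844 (q ^ 1) q (ord385 z) (pow_one q) hq1, mul_zero]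
  · rw [if_neg hE]
    by_cases hRam : HasRamUnif k γ
    · -- elliptic ramified
      rw [if_pos hRam]
      obtain ⟨τ, ν, α, β, d₀, d₁, γ₀, δ₀, hdata, hcj, htw⟩ :=
        hR k k q 1 (RingHom.id k) (RingEquiv.refl k) hk hk1 isLocalExt_refl844 γ γ hreg hE hRam
          (isConj_twNorm_refl844 γ)
      have hc := hO k k q 1 (RingHom.id k) (RingEquiv.refl k) hk hk1 isLocalExt_refl844
        τ ν α β d₀ d₁ γ₀ δ₀ hdata (epFun385 q (ord385 z)) c'
        (isOrbSum_of_twConj844 _ γ δ₀ c' htw hc')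
      obtain ⟨x, hx⟩ := htw
      have hdet₀ : (δ₀ : Matrix (Fin 2) (Fin 2) k).det = (γ : Matrix (Fin 2) (Fin 2) k).det := by
        rw [hx, glAut_refl844]
        exact Matrix.det_units_conj' x (γ : Matrix (Fin 2) (Fin 2) k)
      have hord : H847.ord847 (δ₀ : Matrix (Fin 2) (Fin 2) k).det = 2 * ord385 z := by
        unfold H847.ord847 ord385
        rw [hdet₀, hlogdet]
        ring
      rw [hc, epFun_sum844, hord]
      exact ellWeight_eval844 (q ^ 1) (q : ℂ) (ord385 z) _ (by simp)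
    · -- elliptic unramified
      rw [if_neg hRam]
      obtain ⟨j, r, hj, hr, hgeo⟩ := hU k q hk γ hreg hE hRam
      have hjj : j = ord385 z := by
        have h1 : H60.ordDet γ = 2 * ord385 z := by
          unfold H60.ordDet ord385
          rw [hlogdet]
          ring
        omega
      rw [hgeo _ c' hc', epFun_sum844, hjj]
      exact wGeo_eval844 q r (ord385 z)

end Fermat.Agent.LT.T6.H844

end
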